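import Fermat.Agent.FormsManyVariables.Integral
import Mathlib.Analysis.SpecialFunctions.Gaussian.FourierTransform
import Mathlib.MeasureTheory.Measure.Lebesgue.EqHaar
import Mathlib.MeasureTheory.Integral.DominatedConvergence

/-!
# The singular integral of a positive form

For a positive form `F` of degree `d` the volume of `F ≤ t` is `V t ^ (n / d)`, so `F` pushes the
volume to the density `(n / d) V t ^ (n / d - 1)`. Smoothing by Gaussians gives
`J (c) = (n / d) V c ^ (n / d - 1)` for small `c > 0`.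
-/

set_option autoImplicit false

noncomputable section

namespace FA.FormsManyVariables

open Finset FA.ThreePrimes MvPolynomial MeasureTheory Filter Topology
open scoped Real ENNReal Pointwise

variable {n : ℕ} (F : MvPolynomial (Fin n) ℤ)

/-- Positive on the nonzero real vectors. -/
def IsPositiveForm : Prop := ∀ y : Fin n → ℝ, y ≠ 0 → 0 < aeval y F

/-- The body `F ≤ t`. -/
def formBody (t : ℝ) : Set (Fin n → ℝ) := {y | aeval y F ≤ t}

/-- The density of the values of `F`. -/
def formRho (d : ℕ) (t : ℝ) : ℝ :=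
  (n : ℝ) / d * volume.real (formBody F 1) * t ^ ((n : ℝ) / d - 1)

theorem measurableSet_formBody (t : ℝ) : MeasurableSet (formBody F t) :=
  (isClosed_le (continuous_aeval_form F) continuous_const).measurableSet

theorem aeval_zero_form {d : ℕ} (hd : 1 ≤ d) (hF : F.IsHomogeneous d) :
    aeval (0 : Fin n → ℝ) F = 0 := by
  have h := aeval_smul F hF (0 : ℝ) (0 : Fin n → ℝ)
  simpa [zero_pow (show d ≠ 0 by omega)] using h

theorem IsPositiveForm.exists_lower (hpos : IsPositiveForm F) (hn : 1 ≤ n) {d : ℕ} (hd : 1 ≤ d)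
    (hF : F.IsHomogeneous d) :
    ∃ μ : ℝ, 0 < μ ∧ ∀ y : Fin n → ℝ, μ * ‖y‖ ^ d ≤ aeval y F := by
  have : Nonempty (Fin n) := ⟨⟨0, hn⟩⟩
  obtain ⟨u, hu, hmin⟩ := (isCompact_sphere (0 : Fin n → ℝ) 1).exists_isMinOn
    (NormedSpace.sphere_nonempty.2 zero_le_one) (continuous_aeval_form F).continuousOn
  refine ⟨aeval u F, hpos u (Metric.ne_of_mem_sphere hu one_ne_zero), fun y => ?_⟩
  rcases eq_or_ne y 0 with rfl | hy
  · rw [norm_zero, zero_pow (show d ≠ 0 by omega), mul_zero, aeval_zero_form F hd hF]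
  · have hy' : (‖y‖⁻¹ • y) ∈ Metric.sphere (0 : Fin n → ℝ) 1 := by
      rw [mem_sphere_zero_iff_norm, norm_smul, norm_inv, norm_norm,
        inv_mul_cancel₀ (norm_ne_zero_iff.2 hy)]
    have h : aeval u F ≤ aeval (‖y‖⁻¹ • y) F := hmin hy'
    rw [aeval_smul F hF, inv_pow, le_inv_mul_iff₀ (by positivity)] at h
    linarith

theorem formBody_subset {d : ℕ} (hd : 1 ≤ d) {μ : ℝ} (hμ : 0 < μ)
    (hlow : ∀ y : Fin n → ℝ, μ * ‖y‖ ^ d ≤ aeval y F) (t : ℝ) :
    formBody F t ⊆ Metric.closedBall 0 (max 1 (t / μ)) := by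
  intro y hy
  rw [mem_closedBall_zero_iff]
  rcases le_total ‖y‖ 1 with h | h
  · exact h.trans (le_max_left _ _)
  · refine le_trans ?_ (le_max_right _ _)
    rw [le_div_iff₀ hμ, mul_comm]
    exact (mul_le_mul_of_nonneg_left (le_self_pow₀ h (by omega)) hμ.le).trans ((hlow y).trans hy)

theorem IsPositiveForm.volume_formBody_lt_top (hpos : IsPositiveForm F) (hn : 1 ≤ n) {d : ℕ}
    (hd : 1 ≤ d) (hF : F.IsHomogeneous d) (t : ℝ) : volume (formBody F t) < ⊤ := by
  obtain ⟨μ, hμ, hlow⟩ := hpos.exists_lower F hn hd hF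
  exact (measure_mono (formBody_subset F hd hμ hlow t)).trans_lt measure_closedBall_lt_top

theorem IsPositiveForm.volume_body_one_pos (hpos : IsPositiveForm F) (hn : 1 ≤ n) {d : ℕ}
    (hd : 1 ≤ d) (hF : F.IsHomogeneous d) : 0 < volume.real (formBody F 1) := by
  refine ENNReal.toReal_pos ?_ (hpos.volume_formBody_lt_top F hn hd hF 1).ne
  have h0 : 0 < volume {y : Fin n → ℝ | aeval y F < 1} :=
    (isOpen_lt (continuous_aeval_form F) continuous_const).measure_pos volume
      ⟨0, by simp [aeval_zero_form F hd hF]⟩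
  exact (h0.trans_le (measure_mono fun y hy => (show aeval y F ≤ 1 from le_of_lt hy))).ne'

theorem formBody_eq_smul {d : ℕ} (hd : 1 ≤ d) (hF : F.IsHomogeneous d) {t : ℝ} (ht : 0 < t) :
    formBody F t = (t ^ (1 / (d : ℝ))) • formBody F 1 := by
  have hr : 0 < t ^ (1 / (d : ℝ)) := Real.rpow_pos_of_pos ht _
  ext y
  rw [Set.mem_smul_set_iff_inv_smul_mem₀ hr.ne']
  simp only [formBody, Set.mem_ofPred_eq]
  rw [aeval_smul F hF, inv_pow, ← Real.rpow_natCast (t ^ _) d, ← Real.rpow_mul ht.le,
    one_div_mul_cancel (Nat.cast_ne_zero.2 (show d ≠ 0 by omega)), Real.rpow_one,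
    inv_mul_le_iff₀ ht, mul_one]

theorem IsPositiveForm.volume_formBody (hpos : IsPositiveForm F) (hn : 1 ≤ n) {d : ℕ}
    (hd : 1 ≤ d) (hF : F.IsHomogeneous d) {t : ℝ} (ht : 0 ≤ t) :
    volume (formBody F t) =
      ENNReal.ofReal (volume.real (formBody F 1) * t ^ ((n : ℝ) / d)) := by
  rcases ht.eq_or_lt with rfl | ht
  · have : Nonempty (Fin n) := ⟨⟨0, hn⟩⟩
    have hsub : formBody F 0 ⊆ {0} := fun y hy => by
      by_contra h
      exact (hpos y h).not_ge hy
    rw [measure_mono_null hsub (measure_singleton _), Real.zero_rpow (by positivity), mul_zero,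
      ENNReal.ofReal_zero]
  · rw [formBody_eq_smul F hd hF ht,
      Measure.addHaar_smul_of_nonneg _ (Real.rpow_nonneg ht.le _), Module.finrank_fin_fun,
      mul_comm, ENNReal.ofReal_mul' (by positivity), ← Real.rpow_natCast (t ^ _) n,
      ← Real.rpow_mul ht.le, ofReal_measureReal (hpos.volume_formBody_lt_top F hn hd hF 1).ne,
      one_div_mul_eq_div, mul_comm]

theorem formRho_nonneg (d : ℕ) {t : ℝ} (ht : 0 ≤ t) : 0 ≤ formRho F d t := by
  rw [formRho]; positivity

theorem integral_formRho {d : ℕ} (hn : 1 ≤ n) (hd : 1 ≤ d) {s : ℝ} (hs : 0 ≤ s) :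
    IntegrableOn (formRho F d) (Set.Ioc 0 s) ∧
      ∫ t in Set.Ioc 0 s, formRho F d t =
        volume.real (formBody F 1) * s ^ ((n : ℝ) / d) := by
  have he : -1 < (n : ℝ) / d - 1 := by
    have : (0 : ℝ) < (n : ℝ) / d := by positivity
    linarith
  have hint : IntervalIntegrable (formRho F d) volume 0 s :=
    (intervalIntegral.intervalIntegrable_rpow' he).const_mul _
  refine ⟨hint.1, ?_⟩
  rw [← intervalIntegral.integral_of_le hs]
  simp only [formRho]
  rw [intervalIntegral.integral_const_mul, integral_rpow (Or.inl he), sub_add_cancel,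
    Real.zero_rpow (by positivity), sub_zero]
  field_simp

/-- **The distribution of the values.** -/
theorem IsPositiveForm.map_restrict (hpos : IsPositiveForm F) (hn : 1 ≤ n) {d : ℕ}
    (hd : 1 ≤ d) (hF : F.IsHomogeneous d) {T : ℝ} (hT : 0 ≤ T) :
    Measure.map (fun y => aeval y F) (volume.restrict (formBody F T)) =
      (volume.restrict (Set.Ioc 0 T)).withDensity fun t => ENNReal.ofReal (formRho F d t) := by
  have : IsFiniteMeasure (volume.restrict (formBody F T)) :=
    isFiniteMeasure_restrict.2 (hpos.volume_formBody_lt_top F hn hd hF T).ne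
  refine Measure.ext_of_Iic _ _ fun a => ?_
  rw [Measure.map_apply (continuous_aeval_form F).measurable measurableSet_Iic,
    Measure.restrict_apply ((continuous_aeval_form F).measurable measurableSet_Iic),
    withDensity_apply _ measurableSet_Iic, Measure.restrict_restrict measurableSet_Iic,
    show (fun y => aeval y F) ⁻¹' Set.Iic a ∩ formBody F T = formBody F (min a T) by
      ext y; simp [formBody]]
  rcases le_or_gt 0 (min a T) with h0 | h0
  · rw [show Set.Iic a ∩ Set.Ioc 0 T = Set.Ioc 0 (min a T) by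
      ext t; simp only [Set.mem_inter_iff, Set.mem_Iic, Set.mem_Ioc, le_min_iff]; tauto]
    obtain ⟨hi, he⟩ := integral_formRho F (d := d) hn hd h0
    rw [hpos.volume_formBody F hn hd hF h0, ← he, ofReal_integral_eq_lintegral_ofReal hi]
    exact (ae_restrict_iff' measurableSet_Ioc).2
      (Eventually.of_forall fun t ht => formRho_nonneg F d ht.1.le)
  · have ha : a < 0 := by
      by_contra hcon
      exact h0.not_ge (le_min (not_lt.1 hcon) hT)
    rw [show formBody F (min a T) = ∅ from Set.eq_empty_of_forall_notMem fun y hy => by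
        rcases eq_or_ne y 0 with rfl | hy0
        · simp [formBody, aeval_zero_form F hd hF] at hy
          exact h0.not_ge (le_min hy.1 hT)
        · exact (hpos y hy0).not_ge ((hy : aeval y F ≤ min a T).trans h0.le),
      show Set.Iic a ∩ Set.Ioc 0 T = ∅ from Set.eq_empty_of_forall_notMem fun t ht =>
        ha.not_ge (ht.2.1.le.trans ht.1)]
    simp

theorem IsPositiveForm.integral_body (hpos : IsPositiveForm F) (hn : 1 ≤ n) {d : ℕ}
    (hd : 1 ≤ d) (hF : F.IsHomogeneous d) {T : ℝ} (hT : 0 ≤ T) {g : ℝ → ℝ} (hg : Continuous g) :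
    ∫ y in formBody F T, g (aeval y F) = ∫ t in Set.Ioc 0 T, formRho F d t * g t := by
  have hm : Measurable fun t => (formRho F d t).toNNReal := by unfold formRho; fun_prop
  rw [← integral_map (continuous_aeval_form F).measurable.aemeasurable
    hg.aestronglyMeasurable, hpos.map_restrict F hn hd hF hT]
  refine (integral_withDensity_eq_integral_smul hm g).trans ?_
  refine setIntegral_congr_fun measurableSet_Ioc fun t ht => ?_
  rw [NNReal.smul_def, Real.coe_toNNReal _ (formRho_nonneg F d ht.1.le), smul_eq_mul]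

theorem integral_eAdd_gauss {ε : ℝ} (hε : 0 < ε) (u : ℝ) :
    ∫ γ : ℝ, (Real.exp (-(π * ε ^ 2) * γ ^ 2) : ℂ) * eAdd (γ * u) =
      ((1 / ε * Real.exp (-π * (u / ε) ^ 2) : ℝ) : ℂ) := by
  have hb : 0 < (((π * ε ^ 2 : ℝ)) : ℂ).re := by rw [Complex.ofReal_re]; positivity
  have h := fourierIntegral_gaussian hb ((2 * π * u : ℝ) : ℂ)
  refine Eq.trans (integral_congr_ae (Eventually.of_forall fun γ => ?_)) (h.trans ?_)
  · simp only [eAdd]
    rw [mul_comm]
    push_cast
    ring_nf
  · rw [← Complex.ofReal_div, show (1 / 2 : ℂ) = ((1 / 2 : ℝ) : ℂ) by push_cast; rfl,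
      ← Complex.ofReal_cpow (by positivity),
      show π / (π * ε ^ 2) = (1 / ε) ^ 2 by field_simp, ← Real.sqrt_eq_rpow,
      Real.sqrt_sq (by positivity)]
    push_cast
    congr 2
    field_simp
    ring

/-- The smoothed singular integral. -/
theorem integral_gauss_twisted {ε : ℝ} (hε : 0 < ε)
    (c : ℝ) : ∫ γ : ℝ, (Real.exp (-(π * ε ^ 2) * γ ^ 2) : ℂ) * twistedIntegral F c γ =
      ((∫ y in cube n, 1 / ε * Real.exp (-π * ((aeval y F - c) / ε) ^ 2) : ℝ) : ℂ) := by
  have : IsFiniteMeasure (volume.restrict (cube n)) :=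
    isFiniteMeasure_restrict.2 volume_cube_lt_top.ne
  obtain ⟨h, hh⟩ : ∃ h : ℝ → (Fin n → ℝ) → ℂ, h = fun γ y =>
      (Real.exp (-(π * ε ^ 2) * γ ^ 2) : ℂ) * eAdd (γ * (aeval y F - c)) := ⟨_, rfl⟩
  have e : ∀ γ : ℝ, (Real.exp (-(π * ε ^ 2) * γ ^ 2) : ℂ) * twistedIntegral F c γ =
      ∫ y in cube n, h γ y := fun γ => by
    rw [hh, twistedIntegral, formIntegral, ← integral_mul_const, ← integral_const_mul]
    refine integral_congr_ae (Eventually.of_forall fun y => ?_)
    dsimp only
    rw [← eAdd_add]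
    ring_nf
  rw [integral_congr_ae (Eventually.of_forall e), integral_integral_swap]
  · rw [← integral_complex_ofReal]
    refine integral_congr_ae (Eventually.of_forall fun y => ?_)
    simp only [hh]
    exact integral_eAdd_gauss hε _
  · refine ((integrable_exp_neg_mul_sq (show 0 < π * ε ^ 2 by positivity)).mul_prod
      (integrable_const (1 : ℝ))).mono' ?_ (Eventually.of_forall fun z => ?_)
    · refine Continuous.aestronglyMeasurable ?_
      rw [hh]
      exact ((Complex.continuous_ofReal.comp (Real.continuous_exp.comp (by fun_prop))).mul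
        (continuous_eAdd.comp (continuous_fst.mul
          (((continuous_aeval_form F).comp continuous_snd).sub continuous_const))))
    · simp only [hh, Function.uncurry, norm_mul, norm_eAdd, Complex.norm_real, Real.norm_eq_abs,
        abs_of_pos (Real.exp_pos _), mul_one, le_refl]

/-- **The singular integral of a positive form.** -/
theorem IsPositiveForm.repIntegral_eq {m s : ℕ} (hpos : IsPositiveForm F)
    (hF : F.IsHomogeneous (m + 2)) (hs : SingularDimLE F s)
    (hn : s + (m + 1) * 2 ^ (m + 2) < n) {μ : ℝ} (hμ : 0 < μ)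
    (hlow : ∀ y : Fin n → ℝ, μ * ‖y‖ ^ (m + 2) ≤ aeval y F) {c : ℝ} (hc : 0 < c) (hcμ : c < μ) :
    repIntegral F c = formRho F (m + 2) c := by
  obtain ⟨d, hd⟩ : ∃ d, d = m + 2 := ⟨_, rfl⟩
  have hd1 : 1 ≤ d := by omega
  have hn1 : 1 ≤ n := by omega
  have hdn : d ≤ n := by
    have : m + 2 ≤ (m + 1) * 2 ^ (m + 2) :=
      (show m + 2 ≤ 2 ^ (m + 2) from Nat.lt_two_pow_self.le).trans
        (Nat.le_mul_of_pos_left _ (Nat.succ_pos m))
    omega
  have he : 0 ≤ (n : ℝ) / d - 1 := by
    rw [sub_nonneg, one_le_div (Nat.cast_pos.2 (by omega))]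
    exact Nat.cast_le.2 hdn
  rw [← hd] at hlow ⊢
  have hFd : F.IsHomogeneous d := hd ▸ hF
  obtain ⟨ε, hεdef⟩ : ∃ ε : ℕ → ℝ, ε = fun k : ℕ => 1 / ((k : ℝ) + 1) := ⟨_, rfl⟩
  have hε : ∀ k, 0 < ε k := fun k => by rw [hεdef]; positivity
  have hε0 : Tendsto ε atTop (𝓝 0) := by
    rw [hεdef]; exact tendsto_one_div_add_atTop_nhds_zero_nat
  have hint := integrable_twistedIntegral F hF hs hn c
  have hL : Tendsto (fun k => ∫ γ : ℝ,
      (Real.exp (-(π * ε k ^ 2) * γ ^ 2) : ℂ) * twistedIntegral F c γ) atTop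
      (𝓝 (∫ γ : ℝ, twistedIntegral F c γ)) := by
    refine tendsto_integral_of_dominated_convergence (fun γ => ‖twistedIntegral F c γ‖)
      (fun k => ?_) hint.norm (fun k => Eventually.of_forall fun γ => ?_)
      (Eventually.of_forall fun γ => ?_)
    · exact ((Complex.continuous_ofReal.comp (Real.continuous_exp.comp (by fun_prop))).mul
        (continuous_twistedIntegral F hF c)).aestronglyMeasurable
    · rw [norm_mul, Complex.norm_real, Real.norm_eq_abs, abs_of_pos (Real.exp_pos _)]
      refine mul_le_of_le_one_left (norm_nonneg _) (Real.exp_le_one_iff.2 ?_)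
      have : 0 ≤ π * ε k ^ 2 * γ ^ 2 := by positivity
      linarith
    · have h1 : Tendsto (fun k => Real.exp (-(π * ε k ^ 2) * γ ^ 2)) atTop (𝓝 1) := by
        have h2 : Tendsto (fun k => -(π * ε k ^ 2) * γ ^ 2) atTop
            (𝓝 (-(π * (0 : ℝ) ^ 2) * γ ^ 2)) :=
          ((((hε0.pow 2).const_mul π)).neg).mul_const _
        simpa [Function.comp_def] using (Real.continuous_exp.tendsto _).comp h2
      simpa [Function.comp_def] using ((Complex.continuous_ofReal.tendsto _).comp h1).mul_const
        (twistedIntegral F c γ)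
  rw [integral_twistedIntegral_eq] at hL
  simp only [integral_gauss_twisted F (hε _)] at hL
  have hL' := (Complex.continuous_re.tendsto _).comp hL
  simp only [Function.comp_def, Complex.ofReal_re] at hL'
  refine tendsto_nhds_unique hL' ?_
  -- the body and the rest
  have hsub : formBody F μ ⊆ cube n := fun y hy => by
    rw [mem_cube_iff]
    intro i
    have h1 : ‖y‖ ≤ 1 := by
      by_contra hcon
      rw [not_le] at hcon
      have := (lt_mul_of_one_lt_right hμ (one_lt_pow₀ hcon (by omega))).trans_le (hlow y)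
      exact this.not_ge hy
    exact (Real.norm_eq_abs _ ▸ norm_le_pi_norm y i).trans h1
  obtain ⟨g, hg⟩ : ∃ g : ℕ → ℝ → ℝ,
      g = fun k t => 1 / ε k * Real.exp (-π * ((t - c) / ε k) ^ 2) := ⟨_, rfl⟩
  have hgc : ∀ k, Continuous (g k) := fun k => by rw [hg]; fun_prop
  have hsplit : ∀ k, ∫ y in cube n, g k (aeval y F) =
      (∫ t in Set.Ioc 0 μ, formRho F d t * g k t) +
        ∫ y in cube n \ formBody F μ, g k (aeval y F) := fun k => by
    have hi : IntegrableOn (fun y => g k (aeval y F)) (cube n) :=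
      ((hgc k).comp (continuous_aeval_form F)).continuousOn.integrableOn_compact isCompact_Icc
    rw [← hpos.integral_body F hn1 hd1 hFd hμ.le (hgc k),
      ← setIntegral_union Set.disjoint_sdiff_right
        ((show MeasurableSet (cube n) from measurableSet_Icc).diff (measurableSet_formBody F μ))
        (hi.mono_set hsub)
        (hi.mono_set Set.sdiff_subset), Set.union_sdiff_cancel hsub]
  have hgoal : (fun k => ∫ y in cube n, 1 / ε k * Real.exp (-π * ((aeval y F - c) / ε k) ^ 2)) =
      fun k => (∫ t in Set.Ioc 0 μ, formRho F d t * g k t) +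
        ∫ y in cube n \ formBody F μ, g k (aeval y F) := funext fun k => by
    rw [← hsplit k, hg]
  rw [hgoal]
  conv_rhs => rw [← add_zero (formRho F d c)]
  refine Tendsto.add ?_ ?_
  · -- the peak
    obtain ⟨G, hG⟩ : ∃ G : ℝ → ℝ, G = (Set.Ioc 0 μ).indicator (formRho F d) := ⟨_, rfl⟩
    have hGm : Measurable G := hG ▸ (by unfold formRho; fun_prop :
      Measurable (formRho F d)).indicator measurableSet_Ioc
    have e : ∀ k, ∫ t in Set.Ioc 0 μ, formRho F d t * g k t =
        ∫ u : ℝ, G (c + ε k * u) * Real.exp (-π * u ^ 2) := fun k => by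
      have h1 := Measure.integral_comp_mul_left (fun v => G (c + v) * g k (c + v)) (ε k)
      rw [integral_add_left_eq_self (fun t => G t * g k t) c,
        abs_of_pos (inv_pos.2 (hε k)), smul_eq_mul] at h1
      rw [← integral_indicator measurableSet_Ioc]
      simp only [Set.indicator_mul_left, ← hG]
      rw [← mul_inv_cancel_left₀ (hε k).ne' (∫ t, G t * g k t), ← h1, ← integral_const_mul]
      refine integral_congr_ae (Eventually.of_forall fun u => ?_)
      simp only [hg]
      rw [add_sub_cancel_left, mul_div_cancel_left₀ _ (hε k).ne']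
      have := (hε k).ne'
      field_simp
    simp only [e]
    obtain ⟨M, hM⟩ : ∃ M, M = formRho F d μ := ⟨_, rfl⟩
    have hGb : ∀ t, ‖G t‖ ≤ M := fun t => by
      rw [hG, hM, Set.indicator_apply]
      split_ifs with h
      · rw [Real.norm_eq_abs, abs_of_nonneg (formRho_nonneg F d h.1.le), formRho, formRho]
        exact mul_le_mul_of_nonneg_left (Real.rpow_le_rpow h.1.le h.2 he) (by positivity)
      · rw [norm_zero]; exact formRho_nonneg F d hμ.le
    have hint' : Integrable fun u : ℝ => M * Real.exp (-π * u ^ 2) :=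
      (integrable_exp_neg_mul_sq Real.pi_pos).const_mul M
    have h := tendsto_integral_of_dominated_convergence
      (F := fun k u => G (c + ε k * u) * Real.exp (-π * u ^ 2))
      (f := fun u => formRho F d c * Real.exp (-π * u ^ 2)) _
      (fun k => ((hGm.comp (by fun_prop)).mul (by fun_prop)).aestronglyMeasurable) hint'
      (fun k => Eventually.of_forall fun u => by
        rw [norm_mul, Real.norm_eq_abs (Real.exp _), abs_of_pos (Real.exp_pos _)]
        exact mul_le_mul_of_nonneg_right (hGb _) (Real.exp_pos _).le)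
      (Eventually.of_forall fun u => ?_)
    · rw [integral_const_mul, integral_gaussian, div_self Real.pi_ne_zero, Real.sqrt_one,
        mul_one] at h
      exact h
    · refine Tendsto.mul_const _ ?_
      have hcu : Tendsto (fun k => c + ε k * u) atTop (𝓝 c) := by
        simpa using (hε0.mul_const u).const_add c
      have hcont : ContinuousAt (formRho F d) c :=
        (Real.continuousAt_rpow_const _ _ (Or.inl hc.ne')).const_mul _
      refine ((hcont.tendsto.comp hcu).congr' ?_)
      filter_upwards [hcu.eventually (Ioc_mem_nhds hc hcμ)] with k hk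
      rw [Function.comp_apply, hG, Set.indicator_of_mem (show _ ∈ Set.Ioc 0 μ from hk)]
  · -- away from the body
    obtain ⟨δ, hδ⟩ : ∃ δ, δ = π * (μ - c) ^ 2 := ⟨_, rfl⟩
    have hδ0 : 0 < δ := hδ ▸ by have := sub_pos.2 hcμ; positivity
    have hlim : Tendsto (fun k : ℕ => ((k : ℝ) + 1) * Real.exp (-δ * ((k : ℝ) + 1)) * 2 ^ n)
        atTop (𝓝 0) := by
      have h1 : Tendsto (fun x : ℝ => x ^ (1 : ℝ) * Real.exp (-δ * x)) atTop (𝓝 0) :=
        tendsto_rpow_mul_exp_neg_mul_atTop_nhds_zero _ _ hδ0
      have h2 := (h1.comp (tendsto_natCast_atTop_atTop.atTop_add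
        (tendsto_const_nhds (x := (1 : ℝ))))).mul_const ((2 : ℝ) ^ n)
      simpa using h2
    refine squeeze_zero_norm (fun k => ?_) hlim
    have hfin : volume (cube n \ formBody F μ) < ⊤ :=
      (measure_mono Set.sdiff_subset).trans_lt volume_cube_lt_top
    refine (norm_setIntegral_le_of_norm_le_const
      (C := ((k : ℝ) + 1) * Real.exp (-δ * ((k : ℝ) + 1))) hfin fun y hy => ?_).trans ?_
    · rw [hg]
      have hy' : μ < aeval y F := not_le.1 hy.2
      have hinv : 1 / ε k = (k : ℝ) + 1 := by rw [hεdef]; simp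
      simp only [Real.norm_eq_abs, abs_mul, abs_of_pos (Real.exp_pos _), hinv,
        abs_of_pos (show (0 : ℝ) < k + 1 by positivity)]
      refine mul_le_mul_of_nonneg_left (Real.exp_le_exp.2 ?_) (by positivity)
      rw [hδ, show (aeval y F - c) / ε k = (aeval y F - c) * (1 / ε k) by ring, hinv]
      have h1 : (μ - c) ^ 2 ≤ (aeval y F - c) ^ 2 := by nlinarith
      have h2 : (1 : ℝ) ≤ k + 1 := by simp
      have h3 : (μ - c) ^ 2 * ((k : ℝ) + 1) ≤ (aeval y F - c) ^ 2 * ((k : ℝ) + 1) ^ 2 :=
        mul_le_mul h1 (le_self_pow₀ h2 two_ne_zero) (by positivity) (sq_nonneg _)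
      nlinarith [Real.pi_pos]
    · refine mul_le_mul_of_nonneg_left ?_ (by positivity)
      refine (measureReal_mono Set.sdiff_subset volume_cube_lt_top.ne).trans ?_
      rw [volume_real_cube]

end FA.FormsManyVariables
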