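import Fermat.Agent.FormRepresentations.Density
import Fermat.Agent.FormsManyVariables.Asymptotic

/-!
# Representations by positive forms

With `P` a suitable multiple of `N ^ (1 / d)` the box holds every solution of `F x = N`, and
`J (N / P ^ d) P ^ (n - d) = (n / d) V N ^ (n / d - 1)`.
-/

set_option autoImplicit false

noncomputable section

namespace FA.FormsManyVariables

open Finset MvPolynomial MeasureTheory FA.CubicForms

variable {n : ℕ} (F : MvPolynomial (Fin n) ℤ)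

/-- The number of all solutions of `F x = N`. -/
def repNumber (N : ℤ) : ℕ := Nat.card {x : Fin n → ℤ // eval x F = N}

theorem repNumber_eq_countReps {P : ℕ} {N : ℤ}
    (h : ∀ x : Fin n → ℤ, eval x F = N → x ∈ cbox n P) :
    repNumber F N = countReps F N P := by
  rw [repNumber, countReps, ← Nat.card_eq_finsetCard]
  exact Nat.card_congr (Equiv.subtypeEquivRight fun x =>
    ⟨fun hx => mem_filter.2 ⟨h x hx, hx⟩, fun hx => (mem_filter.1 hx).2⟩)

/-- **Representations by a positive form**: the asymptotic formula. -/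
theorem IsPositiveForm.exists_repNumber_asymptotic {m s : ℕ} (hpos : IsPositiveForm F)
    (hF : F.IsHomogeneous (m + 2)) (hs : SingularDimLE F s)
    (hn : s + (m + 1) * 2 ^ (m + 2) < n) : ∃ δ C : ℝ, 0 < δ ∧ 0 < C ∧ ∀ N : ℕ, 1 ≤ N →
      |(repNumber F N : ℝ) - repSeries F N * formRho F (m + 2) N| ≤
        C * (N : ℝ) ^ ((n : ℝ) / ((m : ℝ) + 2) - 1 - δ) := by
  obtain ⟨d, hd⟩ : ∃ d, d = m + 2 := ⟨_, rfl⟩
  have hd2 : 2 ≤ d := by omega
  have hn1 : 1 ≤ n := by omega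
  have hdn : d + 1 ≤ n := by
    have : m + 2 ≤ (m + 1) * 2 ^ (m + 2) :=
      (show m + 2 ≤ 2 ^ (m + 2) from Nat.lt_two_pow_self.le).trans
        (Nat.le_mul_of_pos_left _ (Nat.succ_pos m))
    omega
  obtain ⟨δ₀, C, hδ₀, hC, hasym⟩ := exists_rep_asymptotic F hF hs hn 1
  obtain ⟨μ, hμ, hlow⟩ := hpos.exists_lower F hn1 (show 1 ≤ m + 2 by omega) hF
  obtain ⟨K, hK⟩ : ∃ K : ℕ, K = ⌈2 / μ⌉₊ + 1 := ⟨_, rfl⟩
  have hK1 : (1 : ℝ) ≤ K := by exact_mod_cast (show 1 ≤ K by omega)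
  have hKμ : 2 / μ ≤ (K : ℝ) := (Nat.le_ceil _).trans (by rw [hK]; push_cast; linarith)
  obtain ⟨δ, hδ⟩ : ∃ δ : ℝ, δ = min δ₀ 1 := ⟨_, rfl⟩
  have hδ0 : 0 < δ := hδ ▸ lt_min hδ₀ one_pos
  have hd0 : (0 : ℝ) < d := Nat.cast_pos.2 (by omega)
  have hdR : (d : ℝ) = (m : ℝ) + 2 := by rw [hd]; push_cast; ring
  have hE : 0 ≤ ((n - d : ℕ) : ℝ) - δ := by
    have h1 : δ ≤ 1 := hδ ▸ min_le_right _ _
    have h2 : ((1 : ℕ) : ℝ) ≤ ((n - d : ℕ) : ℝ) := Nat.cast_le.2 (by omega)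
    push_cast at h2
    linarith
  refine ⟨δ / d, C * (((K : ℝ) + 1) ^ (((n - d : ℕ) : ℝ) - δ)), by positivity, by positivity,
    fun N hN => ?_⟩
  obtain ⟨P, hP⟩ : ∃ P, P = ⌈(K : ℝ) * (N : ℝ) ^ (1 / (d : ℝ))⌉₊ := ⟨_, rfl⟩
  have hN0 : (1 : ℝ) ≤ N := by exact_mod_cast hN
  obtain ⟨R, hR⟩ : ∃ R : ℝ, R = (N : ℝ) ^ (1 / (d : ℝ)) := ⟨_, rfl⟩
  have hR1 : 1 ≤ R := hR ▸ Real.one_le_rpow hN0 (by positivity)
  have hRd : R ^ d = N := by
    rw [hR, ← Real.rpow_natCast (_ ^ _) d, ← Real.rpow_mul (by linarith),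
      one_div_mul_cancel hd0.ne', Real.rpow_one]
  have hPlow : (K : ℝ) * R ≤ P := by rw [hP, ← hR]; exact Nat.le_ceil _
  have hPup : (P : ℝ) ≤ ((K : ℝ) + 1) * R := by
    rw [hP, ← hR]
    refine (Nat.ceil_lt_add_one (by positivity)).le.trans ?_
    linarith
  have hP1 : (1 : ℝ) ≤ P := le_trans (one_le_mul_of_one_le_of_one_le hK1 hR1) hPlow
  have hPd : (K : ℝ) ^ d * N ≤ (P : ℝ) ^ d := by
    rw [← hRd, ← mul_pow]; exact pow_le_pow_left₀ (by positivity) hPlow d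
  have hKd : (K : ℝ) ≤ (K : ℝ) ^ d := le_self_pow₀ hK1 (by omega)
  have hNP : (N : ℝ) ≤ (P : ℝ) ^ d :=
    le_trans (le_mul_of_one_le_left (Nat.cast_nonneg N) (one_le_pow₀ hK1)) hPd
  obtain ⟨c, hc⟩ : ∃ c : ℝ, c = (N : ℝ) / (P : ℝ) ^ d := ⟨_, rfl⟩
  have hc0 : 0 < c := hc ▸ by positivity
  have hcμ : c < μ := by
    rw [hc, div_lt_iff₀ (by positivity)]
    rw [div_le_iff₀ hμ] at hKμ
    calc (N : ℝ) < 2 * N := by linarith
      _ ≤ (K : ℝ) * μ * N := mul_le_mul_of_nonneg_right hKμ (Nat.cast_nonneg N)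
      _ = μ * ((K : ℝ) * N) := by ring
      _ ≤ μ * (P : ℝ) ^ d :=
          mul_le_mul_of_nonneg_left
            ((mul_le_mul_of_nonneg_right hKd (Nat.cast_nonneg N)).trans hPd) hμ.le
  have hcount : repNumber F N = countReps F N P := by
    refine repNumber_eq_countReps F fun x hx => mem_cbox.2 fun i => ?_
    have h1 := hlow fun i => (x i : ℝ)
    rw [aeval_intCast, hx, Int.cast_natCast, ← hd] at h1
    have h2 : ‖fun i => (x i : ℝ)‖ ≤ (P : ℝ) := by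
      by_contra hcon
      rw [not_le] at hcon
      have h3 : (P : ℝ) ^ d ≤ ‖fun i => (x i : ℝ)‖ ^ d :=
        pow_le_pow_left₀ (by linarith) hcon.le d
      rw [hc, div_lt_iff₀ (by positivity)] at hcμ
      exact absurd (hcμ.trans_le ((mul_le_mul_of_nonneg_left h3 hμ.le).trans h1)) (lt_irrefl _)
    have h4 : |(x i : ℝ)| ≤ (P : ℝ) :=
      (Real.norm_eq_abs _ ▸ norm_le_pi_norm (fun i => (x i : ℝ)) i).trans h2
    exact_mod_cast h4
  have h := hasym P (N : ℤ) (by exact_mod_cast hP1) (by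
    rw [Nat.abs_cast, one_mul, ← hd]
    exact_mod_cast hNP)
  rw [Int.cast_natCast, ← hd, ← hc, hpos.repIntegral_eq F hF hs hn hμ hlow hc0 hcμ,
    ← hcount] at h
  have hscale : formRho F (m + 2) c * (P : ℝ) ^ (n - d) = formRho F (m + 2) N := by
    have hp0 : (0 : ℝ) < (P : ℝ) ^ d := by positivity
    simp only [formRho, ← hd]
    rw [hc, Real.div_rpow (Nat.cast_nonneg N) hp0.le, mul_assoc]
    congr 1
    rw [← Real.rpow_natCast (P : ℝ) d, ← Real.rpow_mul (Nat.cast_nonneg P),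
      show (d : ℝ) * ((n : ℝ) / d - 1) = ((n - d : ℕ) : ℝ) by
        rw [Nat.cast_sub (by omega)]; field_simp, Real.rpow_natCast,
      div_mul_cancel₀ _ (pow_ne_zero _ (by linarith))]
  rw [mul_assoc, hscale] at h
  refine h.trans ?_
  rw [mul_assoc C]
  refine mul_le_mul_of_nonneg_left ?_ hC.le
  calc (P : ℝ) ^ (((n - d : ℕ) : ℝ) - δ₀)
      ≤ (P : ℝ) ^ (((n - d : ℕ) : ℝ) - δ) :=
        Real.rpow_le_rpow_of_exponent_le hP1 (by linarith [hδ ▸ min_le_left δ₀ 1])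
    _ ≤ (((K : ℝ) + 1) * R) ^ (((n - d : ℕ) : ℝ) - δ) :=
        Real.rpow_le_rpow (by linarith) hPup hE
    _ = _ := by
        rw [Real.mul_rpow (by positivity) (by linarith), hR, ← Real.rpow_mul (by linarith),
          ← hdR, Nat.cast_sub (by omega)]
        congr 2
        field_simp

end FA.FormsManyVariables
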