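import Fermat.Agent.FormsManyVariables.Twist
import Fermat.Agent.FormsManyVariables.SeriesPositive
import Fermat.Agent.FormsManyVariables.Local
import Mathlib.NumberTheory.Padics.ProperSpace

/-!
# The singular series of `F x = N` is bounded below

Its terms are those of the polynomial `F - N`, so it is at least a positive constant along any set
of `N` with `p`-adic solutions whose gradient has a norm bounded below for each `p`.
-/

set_option autoImplicit false

noncomputable section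

namespace FA.FormsManyVariables

open Finset FA.ThreePrimes FA.WaringAsymptotic FA.CubicForms MvPolynomial

variable {n : ℕ} (F : MvPolynomial (Fin n) ℤ)

theorem repTerm_eq_shift (N : ℤ) (q : ℕ) : repTerm F N q = formTerm (F - C N) q := by
  refine sum_congr rfl fun a _ => ?_
  rw [div_mul_eq_mul_div, completeSum, completeSum, sum_mul]
  congr 1
  refine sum_congr rfl fun r _ => ?_
  rw [← eAdd_add, eval_sub, eval_C]
  push_cast
  ring_nf

/-- **Positivity** of the singular series, uniformly: from approximate solutions that lift. -/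
theorem exists_repSeries_ge_of_near {m s : ℕ} (hF : F.IsHomogeneous (m + 2))
    (hs : SingularDimLE F s) (hn : s + (m + 1) * 2 ^ (m + 2) < n) (S : Set ℤ)
    (hloc : ∀ (p : ℕ) [Fact p.Prime], ∃ E : ℕ, ∀ N ∈ S, ∃ (x : Fin n → ℤ_[p]) (j : Fin n),
      ‖aeval x F - (N : ℤ_[p])‖ < ‖aeval x (pderiv j F)‖ ^ 2 ∧
        (p : ℝ) ^ (-(E : ℤ)) <
          min (‖aeval x (pderiv j F)‖ ^ 2) ‖aeval x (pderiv j F)‖) :
    ∃ c : ℝ, 0 < c ∧ ∀ N ∈ S, c ≤ repSeries F N := by
  obtain ⟨C₀, hC₀, hle⟩ := exists_repTerm_le F hF hs hn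
  obtain ⟨c, hc, h⟩ := exists_singularSeries_ge_family
    (fun N : S => F - MvPolynomial.C (N : ℤ)) (show 1 ≤ n by omega)
    (b := fun q : ℕ => C₀ * (q : ℝ) ^ (-1 - savingExp m / 2))
    ((Real.summable_nat_rpow.2 (by linarith [savingExp_pos m])).mul_left C₀)
    (fun N q => by rw [← repTerm_eq_shift]; exact hle N q) fun p hp => by
      have : Fact p.Prime := ⟨hp⟩
      obtain ⟨E, hE⟩ := hloc p
      refine ⟨E, fun N J => ?_⟩
      obtain ⟨x, j, h1, h2⟩ := hE N N.2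
      refine zeroCount_ge_of_near_zero _ (x := x) (j := j) ?_ ?_ J
      · simpa using h1
      · simpa using h2
  refine ⟨c, hc, fun N hN => (h ⟨N, hN⟩).trans_eq ?_⟩
  simp only [repSeries, singularSeries, repTerm_eq_shift]

/-- **Positivity** from exact solutions with gradient bounded below. -/
theorem exists_repSeries_ge {m s : ℕ} (hF : F.IsHomogeneous (m + 2))
    (hs : SingularDimLE F s) (hn : s + (m + 1) * 2 ^ (m + 2) < n) (S : Set ℤ)
    (hloc : ∀ (p : ℕ) [Fact p.Prime], ∃ E : ℕ, ∀ N ∈ S, ∃ x : Fin n → ℤ_[p],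
      aeval x F = (N : ℤ_[p]) ∧ ∃ j, (p : ℝ) ^ (-(E : ℤ)) ≤ ‖aeval x (pderiv j F)‖) :
    ∃ c : ℝ, 0 < c ∧ ∀ N ∈ S, c ≤ repSeries F N := by
  refine exists_repSeries_ge_of_near F hF hs hn S fun p hp => ?_
  obtain ⟨E, hE⟩ := hloc p
  refine ⟨2 * E + 1, fun N hN => ?_⟩
  obtain ⟨x, hx, j, hj⟩ := hE N hN
  have hp1 : (1 : ℝ) < p := by exact_mod_cast hp.out.one_lt
  obtain ⟨D, hD⟩ : ∃ D, D = ‖aeval x (pderiv j F)‖ := ⟨_, rfl⟩
  rw [← hD] at hj
  have hpE : 0 < (p : ℝ) ^ (-(E : ℤ)) := zpow_pos (by linarith) _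
  refine ⟨x, j, ?_, ?_⟩
  · rw [hx, sub_self, norm_zero, ← hD]
    exact pow_pos (hpE.trans_le hj) 2
  rw [← hD]
  have h1 : (p : ℝ) ^ (-((2 * E + 1 : ℕ) : ℤ)) < ((p : ℝ) ^ (-(E : ℤ))) ^ 2 := by
    rw [← zpow_natCast ((p : ℝ) ^ _) 2, ← zpow_mul]
    exact zpow_lt_zpow_right₀ hp1 (by push_cast; omega)
  refine lt_min (h1.trans_le (pow_le_pow_left₀ hpE.le hj 2)) (lt_of_lt_of_le ?_ hj)
  exact zpow_lt_zpow_right₀ hp1 (by push_cast; omega)

/-- A number solvable modulo every power of `p` is a value on `ℤ_p`. -/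
theorem exists_padicInt_solution {p : ℕ} [hp : Fact p.Prime] {N : ℤ}
    (h : ∀ k : ℕ, ∃ x : Fin n → ℤ, ((p ^ k : ℕ) : ℤ) ∣ eval x F - N) :
    ∃ x : Fin n → ℤ_[p], aeval x F = (N : ℤ_[p]) := by
  have hcont : Continuous fun x : Fin n → ℤ_[p] => ‖aeval x F - (N : ℤ_[p])‖ := by
    simp only [aeval_eq_sum]
    fun_prop
  obtain ⟨x₀, -, hmin⟩ := isCompact_univ.exists_isMinOn Set.univ_nonempty hcont.continuousOn
  refine ⟨x₀, sub_eq_zero.1 (norm_le_zero_iff.1 (le_of_forall_pos_le_add fun ε hε => ?_))⟩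
  obtain ⟨k, hk⟩ := exists_pow_lt_of_lt_one hε
    (inv_lt_one_of_one_lt₀ (show (1 : ℝ) < p by exact_mod_cast hp.out.one_lt))
  obtain ⟨x, hx⟩ := h k
  rw [zero_add]
  refine (hmin (Set.mem_univ fun i => (x i : ℤ_[p]))).trans (le_trans ?_ hk.le)
  show ‖aeval (fun i => (x i : ℤ_[p])) F - (N : ℤ_[p])‖ ≤ _
  rw [aeval_intCast, ← Int.cast_sub, inv_pow, ← zpow_natCast (p : ℝ) k, ← zpow_neg]
  exact PadicInt.norm_int_le_pow_iff_dvd.2 (by exact_mod_cast hx)

end FA.FormsManyVariables
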