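import Fermat.Agent.FormRepresentations.Positive
import Fermat.Agent.FormRepresentations.Series
import Fermat.Agent.FormsManyVariables.Examples
import Fermat.Agent.QuadForms.Diagonal
import Mathlib.RingTheory.MvPolynomial.EulerIdentity

/-!
# Tartakovskii's theorem

A positive quadratic form in at least five variables is isotropic over every `ℚ_p`, so each local
solution of `Q x = N` can be moved by an isotropic vector to one with a gradient of bounded
valuation. Hence the singular series is bounded below on the locally represented numbers, and all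
large ones of them are represented.
-/

set_option autoImplicit false

noncomputable section

namespace FA.FormsManyVariables

open Finset MvPolynomial

variable {n : ℕ} (Q : MvPolynomial (Fin n) ℤ)

/-- The integral matrix of second derivatives. -/
def hessianEntry (j l : Fin n) : ℤ := coeff (Finsupp.single l 1) (pderiv j Q)

theorem eq_sum_of_isHomogeneous_one {G : MvPolynomial (Fin n) ℤ} (hG : G.IsHomogeneous 1) :
    G = ∑ l, C (coeff (Finsupp.single l 1) G) * X l := by
  classical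
  conv_lhs => rw [← one_smul ℕ G, ← hG.sum_X_mul_pderiv]
  refine sum_congr rfl fun l _ => ?_
  have h0 : (pderiv l G).IsHomogeneous 0 := isHomogeneous_pderiv G hG l
  rw [mul_comm, totalDegree_eq_zero_iff_eq_C.1 (Nat.le_zero.1 h0.totalDegree_le), coeff_pderiv]
  simp

variable {Q}

theorem aeval_pderiv_eq (hQ : Q.IsHomogeneous 2) {R : Type*} [CommRing R] (x : Fin n → R)
    (j : Fin n) : aeval x (pderiv j Q) = ∑ l, (hessianEntry Q j l : R) * x l := by
  conv_lhs => rw [eq_sum_of_isHomogeneous_one (isHomogeneous_pderiv Q hQ j)]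
  simp [hessianEntry]

theorem two_mul_aeval_eq (hQ : Q.IsHomogeneous 2) {R : Type*} [CommRing R] (x : Fin n → R) :
    2 * aeval x Q = ∑ j, x j * aeval x (pderiv j Q) := by
  have h := congrArg (aeval x) hQ.sum_X_mul_pderiv
  simp only [map_sum, map_mul, aeval_X, nsmul_eq_mul] at h
  rw [h]
  norm_num

variable (Q) in
theorem hessianEntry_comm (j l : Fin n) : hessianEntry Q j l = hessianEntry Q l j := by
  rcases eq_or_ne j l with rfl | h
  · rfl
  · rw [hessianEntry, hessianEntry, coeff_pderiv, coeff_pderiv, Finsupp.single_eq_of_ne h,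
      Finsupp.single_eq_of_ne h.symm, add_comm (Finsupp.single l 1)]

theorem aeval_pderiv_add (hQ : Q.IsHomogeneous 2) {R : Type*} [CommRing R] (x z : Fin n → R)
    (j : Fin n) :
    aeval (x + z) (pderiv j Q) = aeval x (pderiv j Q) + aeval z (pderiv j Q) := by
  simp only [aeval_pderiv_eq hQ, Pi.add_apply, mul_add, sum_add_distrib]

theorem aeval_add_eq (hQ : Q.IsHomogeneous 2) {R : Type*} [CommRing R] [IsDomain R] [CharZero R]
    (x z : Fin n → R) :
    aeval (x + z) Q = aeval x Q + ∑ j, z j * aeval x (pderiv j Q) + aeval z Q := by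
  refine mul_left_cancel₀ (two_ne_zero (α := R)) ?_
  rw [mul_add, mul_add, two_mul_aeval_eq hQ, two_mul_aeval_eq hQ, two_mul_aeval_eq hQ]
  have hsym : ∑ j, x j * aeval z (pderiv j Q) = ∑ j, z j * aeval x (pderiv j Q) := by
    simp only [aeval_pderiv_eq hQ, mul_sum]
    rw [sum_comm]
    refine sum_congr rfl fun j _ => sum_congr rfl fun l _ => ?_
    rw [hessianEntry_comm Q l j]
    ring
  simp only [aeval_pderiv_add hQ, Pi.add_apply, add_mul, mul_add, sum_add_distrib, hsym, two_mul]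
  abel

theorem IsPositiveForm.isNonsingularForm (hpos : IsPositiveForm Q) (hQ : Q.IsHomogeneous 2) :
    IsNonsingularForm Q := by
  intro z hz
  have key : ∀ u : ℂ →ₗ[ℝ] ℝ, (fun l => u (z l)) = 0 := fun u => by
    by_contra hne
    refine (hpos _ hne).ne' (mul_left_cancel₀ (two_ne_zero (α := ℝ)) ?_)
    rw [two_mul_aeval_eq hQ, mul_zero]
    refine sum_eq_zero fun j _ => ?_
    have h := congrArg u (hz j)
    rw [aeval_pderiv_eq hQ, map_sum, map_zero] at h
    refine mul_eq_zero_of_right _ ?_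
    rw [aeval_pderiv_eq hQ]
    refine Eq.trans (sum_congr rfl fun l _ => ?_) h
    rw [← zsmul_eq_mul, ← zsmul_eq_mul, map_zsmul]
  funext l
  exact Complex.ext (congrFun (key Complex.reLm) l) (congrFun (key Complex.imLm) l)

/-- **Isotropy at every prime.** -/
theorem exists_padicInt_isotropic (hQ : Q.IsHomogeneous 2) (hns : IsNonsingularForm Q)
    (hn : 5 ≤ n) (p : ℕ) [Fact p.Prime] :
    ∃ z : Fin n → ℤ_[p], aeval z Q = 0 ∧ ∃ j, aeval z (pderiv j Q) ≠ 0 := by
  obtain ⟨d, w, hd, hiff⟩ := QuadForms.exists_matrixIsotropic_iff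
    (Matrix.of fun j l : Fin n => (hessianEntry Q j l : ℚ))
  obtain ⟨z, hz, hz0⟩ := (hiff ℚ_[p]).2
    (QuadForms.isotropic_five (by rw [Fintype.card_fin, hd, Fintype.card_fin]; exact hn) _)
  have hQz : aeval z Q = 0 := by
    refine mul_left_cancel₀ (two_ne_zero (α := ℚ_[p])) ?_
    rw [two_mul_aeval_eq hQ, mul_zero, ← hz0]
    simp [Matrix.mulVec, dotProduct, aeval_pderiv_eq hQ]
  obtain ⟨x, hx, hxQ⟩ := exists_padicInt_zero_of_padic Q hQ hz hQz
  obtain ⟨j, hj⟩ := hns.exists_pderiv_ne Q (m := 0) hQ hx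
  refine ⟨x, hxQ, j, fun h => hj ?_⟩
  have := aeval_ringHom (pderiv j Q) (PadicInt.Coe.ringHom (p := p)) x
  rw [h, map_zero] at this
  exact this

/-- **One level for all local solutions.** -/
theorem exists_quadratic_level (hQ : Q.IsHomogeneous 2) (hns : IsNonsingularForm Q) (hn : 5 ≤ n)
    (p : ℕ) [hp : Fact p.Prime] : ∃ E : ℕ, ∀ (N : ℤ) (x : Fin n → ℤ_[p]),
      aeval x Q = (N : ℤ_[p]) → ∃ (y : Fin n → ℤ_[p]) (j : Fin n),
        ‖aeval y Q - (N : ℤ_[p])‖ < ‖aeval y (pderiv j Q)‖ ^ 2 ∧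
          (p : ℝ) ^ (-(E : ℤ)) <
            min (‖aeval y (pderiv j Q)‖ ^ 2) ‖aeval y (pderiv j Q)‖ := by
  classical
  obtain ⟨z, hz, j, hj⟩ := exists_padicInt_isotropic hQ hns hn p
  obtain ⟨D, hD⟩ : ∃ D, D = ‖aeval z (pderiv j Q)‖ := ⟨_, rfl⟩
  have hD0 : 0 < D := hD ▸ norm_pos_iff.2 hj
  have hD1 : D ≤ 1 := hD ▸ PadicInt.norm_le_one _
  obtain ⟨E, hE⟩ := exists_pow_lt_of_lt_one (pow_pos hD0 4)
    (inv_lt_one_of_one_lt₀ (show (1 : ℝ) < p by exact_mod_cast hp.out.one_lt))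
  rw [inv_pow, ← zpow_natCast (p : ℝ) E, ← zpow_neg] at hE
  have hD4 : D ^ 4 ≤ D ^ 2 := pow_le_pow_of_le_one hD0.le hD1 (by norm_num)
  have hD2 : D ^ 2 ≤ D := pow_le_of_le_one hD0.le hD1 two_ne_zero
  refine ⟨E, fun N x hx => ?_⟩
  by_cases hbig : ∃ l, D ^ 2 ≤ ‖aeval x (pderiv l Q)‖
  · obtain ⟨l, hl⟩ := hbig
    refine ⟨x, l, ?_, lt_min (hE.trans_le ?_) ((hE.trans_le hD4).trans_le hl)⟩
    · rw [hx, sub_self, norm_zero]
      exact pow_pos (lt_of_lt_of_le (pow_pos hD0 2) hl) 2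
    · calc D ^ 4 = (D ^ 2) ^ 2 := by ring
        _ ≤ _ := pow_le_pow_left₀ (sq_nonneg D) hl 2
  push Not at hbig
  have hnorm : ‖aeval (x + z) (pderiv j Q)‖ = D := by
    rw [aeval_pderiv_add hQ, PadicInt.norm_add_eq_max_of_ne
      ((hbig j).trans_le (hD2.trans_eq hD)).ne, max_eq_right ((hbig j).le.trans (hD2.trans_eq hD)),
      ← hD]
  refine ⟨x + z, j, ?_, ?_⟩
  · rw [hnorm, aeval_add_eq hQ, hx, hz, add_zero, add_sub_cancel_left]
    refine sum_induction _ (fun a : ℤ_[p] => ‖a‖ < D ^ 2)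
      (fun a b ha hb => (PadicInt.nonarchimedean a b).trans_lt (max_lt ha hb))
      (by rw [norm_zero]; positivity) fun l _ => ?_
    rw [norm_mul]
    exact (mul_le_of_le_one_left (norm_nonneg _) (PadicInt.norm_le_one _)).trans_lt (hbig l)
  · rw [hnorm]
    exact lt_min (hE.trans_le hD4) ((hE.trans_le hD4).trans_le hD2)

/-- `N` is represented modulo every positive integer. -/
def IsLocallyRepresented (Q : MvPolynomial (Fin n) ℤ) (N : ℤ) : Prop :=
  ∀ m : ℕ, 1 ≤ m → ∃ x : Fin n → ℤ, (m : ℤ) ∣ eval x Q - N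

/-- The singular series is bounded below on the locally represented numbers. -/
theorem exists_repSeries_ge_quadratic (hQ : Q.IsHomogeneous 2) (hns : IsNonsingularForm Q)
    (hn : 5 ≤ n) :
    ∃ c : ℝ, 0 < c ∧ ∀ N, IsLocallyRepresented Q N → c ≤ repSeries Q N := by
  refine exists_repSeries_ge_of_near Q (m := 0) (s := 0) hQ ((singularDimLE_zero_iff Q).2 hns)
    (by omega) {N | IsLocallyRepresented Q N} fun p hp => ?_
  obtain ⟨E, hE⟩ := exists_quadratic_level hQ hns hn p
  refine ⟨E, fun N hN => ?_⟩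
  obtain ⟨x, hx⟩ := exists_padicInt_solution Q (p := p) fun k =>
    hN (p ^ k) (Nat.one_le_pow _ _ hp.out.pos)
  exact hE N x hx

/-- **Tartakovskii**: large locally represented numbers are represented. -/
theorem IsPositiveForm.tartakovskii (hpos : IsPositiveForm Q) (hQ : Q.IsHomogeneous 2)
    (hn : 5 ≤ n) : ∃ N₀ : ℕ, ∀ N : ℕ, N₀ ≤ N →
      ((∃ x : Fin n → ℤ, eval x Q = N) ↔ IsLocallyRepresented Q N) := by
  have hns := hpos.isNonsingularForm hQ
  obtain ⟨c, hc, hser⟩ := exists_repSeries_ge_quadratic hQ hns hn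
  obtain ⟨δ, C, hδ, hC, hasym⟩ := hpos.exists_repNumber_asymptotic Q (m := 0) (s := 0) hQ
    ((singularDimLE_zero_iff Q).2 hns) (by omega)
  obtain ⟨K, hK⟩ : ∃ K, K = c * ((n : ℝ) / 2 * MeasureTheory.volume.real (formBody Q 1)) :=
    ⟨_, rfl⟩
  have hK0 : 0 < K := by
    have := hpos.volume_body_one_pos Q (d := 2) (by omega) (by omega) hQ
    have hn' : (0 : ℝ) < n := Nat.cast_pos.2 (by omega)
    rw [hK]; positivity
  have hlim := (((tendsto_rpow_neg_atTop hδ).comp tendsto_natCast_atTop_atTop).const_mul C)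
  rw [mul_zero] at hlim
  obtain ⟨N₁, hN₁⟩ := Filter.eventually_atTop.1 (hlim.eventually (eventually_lt_nhds hK0))
  refine ⟨N₁ + 1, fun N hN => ⟨fun ⟨x, hx⟩ m _ => ⟨x, by rw [hx, sub_self]; exact dvd_zero _⟩,
    fun hloc => ?_⟩⟩
  have hN1 : (1 : ℝ) ≤ N := by exact_mod_cast (show 1 ≤ N by omega)
  have h := (abs_le.1 (hasym N (by omega))).1
  obtain ⟨U, hU⟩ : ∃ U : ℝ, U = (N : ℝ) ^ ((n : ℝ) / 2 - 1) := ⟨_, rfl⟩
  have hU0 : 0 < U := hU ▸ by positivity
  have hmain : K * U ≤ repSeries Q N * formRho Q 2 N := by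
    rw [hK, hU, formRho, mul_assoc c, Nat.cast_ofNat]
    exact mul_le_mul_of_nonneg_right (hser N hloc) (by positivity)
  have herr : C * (N : ℝ) ^ ((n : ℝ) / ((0 : ℕ) + 2 : ℝ) - 1 - δ) < K * U := by
    rw [Nat.cast_zero, zero_add, sub_eq_add_neg _ δ, Real.rpow_add (by linarith), ← hU,
      mul_left_comm, mul_comm K U]
    exact mul_lt_mul_of_pos_left (hN₁ N (by omega)) hU0
  have hne : repNumber Q N ≠ 0 := fun h0 => by
    rw [h0, Nat.cast_zero] at h
    linarith
  obtain ⟨⟨x, hx⟩⟩ := (Nat.card_ne_zero.1 hne).1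
  exact ⟨x, hx⟩

end FA.FormsManyVariables
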